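/-
S48 node C (IntegralStructure): skeleton.  Sub-architect: helper228.
WIP file: never import it from a final file.  Each block below = one task = one final file
`Fermat/Agent/S48/IS/<Name>.lean`, namespace `Fermat.Agent.S48.IS`.
-/
import Mathlib
import Fermat.Agent.S23.Wire
import Fermat.Agent.S48.Nodes
import Fermat.Agent.S48.IS.Defs
import Fermat.Prelude.Thm_ModularForm_sturm_bound_of_isArithmetic

set_option autoImplicit false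

namespace Fermat.Agent.S48.IS

open UpperHalfPlane ModularForm CongruenceSubgroup EisensteinSeries Matrix Complex
open scoped MatrixGroups Manifold Real

/-! ### C1  General.lean : the S23 machine for an arbitrary arithmetic group with a separating form -/

theorem span_isQInt_eq_top {Γ : Subgroup (GL (Fin 2) ℝ)} [Γ.IsArithmetic] [Γ.HasDetOne] {w : ℤ}
    (k : ℤ) (hΓ : (1 : ℝ) ∈ Γ.strictPeriods) (hle : Γ ≤ 𝒮ℒ) (t : ModularForm Γ w)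
    (htQ : ∀ n, ∃ r : ℚ, (qExpansion 1 t).coeff n = (r : ℂ)) (htS : t ∈ S23.intSpan Γ w)
    (hsep : Function.Injective (SlashInvariantForm.quotientFunc (ℋ := 𝒮ℒ) t)) :
    Submodule.span ℂ {f : CuspForm Γ k | S23.IsQInt f} = ⊤ := by
  sorry

/-! ### C2  EisSet.lean : Eisenstein series attached to an arbitrary set of lattice vectors -/

theorem eisSet_slash (S : Set (Fin 2 → ℤ)) (k : ℤ) (γ : SL(2, ℤ)) :
    eisSet S k ∣[k] γ = eisSet ((fun v => v ᵥ* (γ : Matrix (Fin 2) (Fin 2) ℤ)) '' S) k := by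
  sorry

theorem mdiff_eisSet {k : ℤ} (hk : 3 ≤ k) (S : Set (Fin 2 → ℤ)) : MDiff (eisSet S k) := by
  sorry

theorem isBoundedAtImInfty_eisSet {k : ℤ} (hk : 3 ≤ k) (S : Set (Fin 2 → ℤ)) :
    IsBoundedAtImInfty (eisSet S k) := by
  sorry

theorem exists_modularForm_eisSet {k : ℤ} (hk : 3 ≤ k) (S : Set (Fin 2 → ℤ))
    (Γ : Subgroup SL(2, ℤ))
    (hS : ∀ γ ∈ Γ, (fun v => v ᵥ* (γ : Matrix (Fin 2) (Fin 2) ℤ)) '' S = S) :
    ∃ F : ModularForm (Γ : Subgroup (GL (Fin 2) ℝ)) k, (F : ℍ → ℂ) = eisSet S k := by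
  sorry

/-! ### C3  EisQ.lean : the `q`-expansion of `∑_{c ≡ u (N), d ∈ ℤ} (c z + d) ^ (-3)` -/

theorem hasSum_eisSet_colSet (N : ℕ) [NeZero N] (u : ZMod N) (hu : u ≠ 0) (z : ℍ) :
    HasSum (fun m : ℕ => ((-2 * π * Complex.I) ^ 3 / 2 * (cB N u m : ℂ)) * cexp (2 * π * Complex.I * z) ^ m)
      (eisSet (colSet N u) 3 z) := by
  sorry

theorem coeff_qExpansion_eisSet_colSet (N : ℕ) [NeZero N] (u : ZMod N) (hu : u ≠ 0) (m : ℕ) :
    (qExpansion 1 (eisSet (colSet N u) 3)).coeff m = (-2 * π * Complex.I) ^ 3 / 2 * (cB N u m : ℂ) := by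
  sorry

/-! ### C4  TB.lean : the form `tB` on `Γ₁(N)` and its translates by `Γ₀(N)` -/

theorem image_colSet (N : ℕ) (u : ZMod N) (γ : SL(2, ℤ)) (hγ : γ ∈ Gamma0 N) :
    (fun v => v ᵥ* (γ : Matrix (Fin 2) (Fin 2) ℤ)) '' colSet N u =
      colSet N (u * ((γ 0 0 : ℤ) : ZMod N)) := by
  sorry

theorem exists_tB (N : ℕ) [NeZero N] (hN : 3 ≤ N) :
    ∃ tB : ModularForm (Gamma1 N : Subgroup (GL (Fin 2) ℝ)) 3, S23.IsQInt tB ∧ tB ≠ 0 ∧
      ∀ γ : SL(2, ℤ), γ ∈ Gamma0 N → (tB : ℍ → ℂ) ∣[(3 : ℤ)] γ = tB → γ ∈ Gamma1 N := by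
  sorry

/-! ### C5  Sep.lean : the separating form `tB * tA ^ j` -/

/-- Variant of `S23.Sep.dvd_of_slash_eq`: only the absolute values agree. -/
theorem dvd_of_norm_slash_eq {k : ℤ} (hk : k ≠ 0) (f : ModularForm 𝒮ℒ k) {L : ℂ} (hL : L ≠ 0)
    (hf : Filter.Tendsto f atImInfty (nhds L)) (N : ℕ) [NeZero N] (γ : SL(2, ℤ))
    (h : ∀ z, ‖(((f : ℍ → ℂ) ∣[k] S23.Sep.alpha N) ∣[k] γ) z‖ =
      ‖((f : ℍ → ℂ) ∣[k] S23.Sep.alpha N) z‖) : (N : ℤ) ∣ γ 1 0 := by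
  sorry

/-- Pigeonhole: if `tA` has stabiliser `≤ G₀` even up to absolute values, `tB ≠ 0`, then for a
suitable `j` the stabiliser of `tB * tA ^ j` is contained in `G₀`. -/
theorem exists_pow_stabilizer_le {Γ : Subgroup SL(2, ℤ)} [Γ.FiniteIndex] (G₀ : Subgroup SL(2, ℤ))
    {a b : ℤ} (tA tB : ℍ → ℂ) (hA : MDiff tA) (hB : MDiff tB) (hB0 : tB ≠ 0) (hA0 : tA ≠ 0)
    (hAΓ : ∀ γ ∈ Γ, tA ∣[a] γ = tA) (hBΓ : ∀ γ ∈ Γ, tB ∣[b] γ = tB)
    (hA' : ∀ γ : SL(2, ℤ), (∀ z, ‖(tA ∣[a] γ) z‖ = ‖tA z‖) → γ ∈ G₀) :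
    ∃ j : ℕ, ∀ γ : SL(2, ℤ), (tB * tA ^ j) ∣[b + j * a] γ = tB * tA ^ j → γ ∈ G₀ := by
  sorry

theorem exists_sepForm (N : ℕ) [NeZero N] (hN : 3 ≤ N) :
    ∃ (w : ℤ) (t : ModularForm (Gamma1 N : Subgroup (GL (Fin 2) ℝ)) w),
      (∀ n, ∃ r : ℚ, (qExpansion 1 t).coeff n = (r : ℂ)) ∧
      t ∈ S23.intSpan (Gamma1 N : Subgroup (GL (Fin 2) ℝ)) w ∧
      Function.Injective (SlashInvariantForm.quotientFunc (ℋ := 𝒮ℒ) t) := by
  sorry

/-! ### C6  Final.lean -/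

theorem eq_zero_of_le_two (N : ℕ) [NeZero N] (hN : N ≤ 2) (f : CuspForm (Gamma1 N) 1) : f = 0 := by
  sorry

theorem integralStructure : IntegralStructure := by
  sorry

end Fermat.Agent.S48.IS
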